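import Mathlib
import Fermat.Agent.LT.T3.R.Spec

/-!
# Row LT, tower T3, station T3.18R, leaf R.10 `LocOfMeanRC` (helper981, OFF-MAIN)

`locOfMeanRC981 (K) : R.LocOfMeanRC K` = the frozen Prop of `LT/T3/R/Spec.lean`
(helper14@15de5f60f, sha256 a528b35a), VERBATIM, unconditional, every number field.

Proof.  `reEmb981 hR : ∏_w GL₂(ℝ) →* GL₂(𝔸_K)` is the continuous embedding of the real
components (the inverse `ℝ → K_w` of `extensionEmbeddingOfIsReal` at every place, `1` at the
finite places).  An element which is local at `w` is the image of the family supported at `w`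
of its component (`eq_reEmbAt_of_local981`); so every section `Y` of `reGL` at `w` with local
values is `reEmbAt981 hR w`: unique, multiplicative and continuous.  The four clauses of
`locClassR` are then the four fields `cont`, `arch_compact`, `arch_scalar`, `mean` of
`IsMeanLevelR` (the type `typeR n` of an element supported at `w` is `wtChar (n w)` of its
component, `wtChar n 1 = 1`).
-/

set_option autoImplicit false
set_option linter.style.haveILetI false
set_option linter.unusedSectionVars false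

open IsDedekindDomain NumberField Topology MeasureTheory
open Fermat.Agent.LT.H556.A0

noncomputable section

namespace Fermat.Agent.LT.T3.R.H981

variable {K : Type} [Field K] [NumberField K]

/-! ## 0. Adeles and adelic matrices by components -/

theorem adl_ext981 {x y : Adl K} (h1 : ∀ w : InfinitePlace K, x.1 w = y.1 w)
    (h2 : ∀ v : HeightOneSpectrum (𝓞 K), x.2 v = y.2 v) : x = y := by
  refine Prod.ext (funext h1) ?_
  exact RestrictedProduct.ext _ _ h2

/-! ## 1. The embedding of the real components -/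

/-- The inverse of the embedding `K_w → ℝ` at a real place. -/
def rInv981 (w : InfinitePlace K) (hw : w.IsReal) : ℝ →+* w.Completion :=
  ((InfinitePlace.Completion.ringEquivRealOfIsReal hw).symm : ℝ ≃+* w.Completion)

theorem ext_rInv981 (w : InfinitePlace K) (hw : w.IsReal) (x : ℝ) :
    InfinitePlace.Completion.extensionEmbeddingOfIsReal hw (rInv981 w hw x) = x :=
  (InfinitePlace.Completion.ringEquivRealOfIsReal hw).apply_symm_apply x

theorem rInv_ext981 (w : InfinitePlace K) (hw : w.IsReal) (x : w.Completion) :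
    rInv981 w hw (InfinitePlace.Completion.extensionEmbeddingOfIsReal hw x) = x :=
  (InfinitePlace.Completion.ringEquivRealOfIsReal hw).symm_apply_apply x

theorem continuous_rInv981 (w : InfinitePlace K) (hw : w.IsReal) :
    Continuous (rInv981 w hw) :=
  (InfinitePlace.Completion.isometryEquivRealOfIsReal hw).symm.continuous

variable (hR : ∀ w : InfinitePlace K, w.IsReal)

/-- The adelic matrix with components `t w` at the (real) infinite places and `1` at the finite
places. -/
def reMat981 (t : InfinitePlace K → Matrix (Fin 2) (Fin 2) ℝ) :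
    Matrix (Fin 2) (Fin 2) (Adl K) :=
  fun i j => (fun w => rInv981 w (hR w) (t w i j), ((1 : Matrix (Fin 2) (Fin 2) (Adl K)) i j).2)

theorem reMat_inf981 (t : InfinitePlace K → Matrix (Fin 2) (Fin 2) ℝ) (w : InfinitePlace K)
    (i j : Fin 2) : (reMat981 hR t i j).1 w = rInv981 w (hR w) (t w i j) := rfl

theorem reMat_fin981 (t : InfinitePlace K → Matrix (Fin 2) (Fin 2) ℝ)
    (v : HeightOneSpectrum (𝓞 K)) (i j : Fin 2) :
    (reMat981 hR t i j).2 v = (1 : Matrix (Fin 2) (Fin 2) (v.adicCompletion K)) i j := by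
  change ((1 : Matrix (Fin 2) (Fin 2) (Adl K)) i j).2 v = _
  rw [Matrix.one_apply, Matrix.one_apply]
  split_ifs <;> rfl

theorem mul_inf981 (A B : Matrix (Fin 2) (Fin 2) (Adl K)) (w : InfinitePlace K) (i j : Fin 2) :
    ((A * B) i j).1 w = ∑ k : Fin 2, (A i k).1 w * (B k j).1 w := by
  rw [Matrix.mul_apply]
  simp only [Fin.sum_univ_two]
  rfl

theorem mul_fin981 (A B : Matrix (Fin 2) (Fin 2) (Adl K)) (v : HeightOneSpectrum (𝓞 K))
    (i j : Fin 2) : ((A * B) i j).2 v = ∑ k : Fin 2, (A i k).2 v * (B k j).2 v := by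
  rw [Matrix.mul_apply]
  simp only [Fin.sum_univ_two]
  rfl

theorem reMat_mul981 (s t : InfinitePlace K → Matrix (Fin 2) (Fin 2) ℝ) :
    reMat981 hR s * reMat981 hR t = reMat981 hR (fun w => s w * t w) := by
  ext i j : 2
  refine adl_ext981 (fun w => ?_) (fun v => ?_)
  · rw [mul_inf981, reMat_inf981, Matrix.mul_apply, map_sum]
    refine Finset.sum_congr rfl fun k _ => ?_
    rw [reMat_inf981, reMat_inf981, map_mul]
  · rw [mul_fin981, reMat_fin981]
    simp only [reMat_fin981]
    rw [← Matrix.mul_apply, mul_one]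

theorem reMat_one981 :
    reMat981 hR (fun _ => (1 : Matrix (Fin 2) (Fin 2) ℝ)) = 1 := by
  ext i j : 2
  refine adl_ext981 (fun w => ?_) (fun v => ?_)
  · rw [reMat_inf981, Matrix.one_apply, Matrix.one_apply]
    split_ifs
    · rw [map_one]; rfl
    · rw [map_zero]; rfl
  · rfl

/-- The embedding `∏_w GL₂(ℝ) → GL₂(𝔸_K)` (`K` totally real). -/
def reEmb981 : (InfinitePlace K → GL (Fin 2) ℝ) →* G K where
  toFun t :=
    ⟨reMat981 hR (fun w => ((t w : GL (Fin 2) ℝ) : Matrix (Fin 2) (Fin 2) ℝ)),
      reMat981 hR (fun w => (((t w)⁻¹ : GL (Fin 2) ℝ) : Matrix (Fin 2) (Fin 2) ℝ)),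
      by
        rw [reMat_mul981]
        simp only [← Units.val_mul, mul_inv_cancel, Units.val_one]
        exact reMat_one981 hR,
      by
        rw [reMat_mul981]
        simp only [← Units.val_mul, inv_mul_cancel, Units.val_one]
        exact reMat_one981 hR⟩
  map_one' := by
    apply Units.ext
    exact reMat_one981 hR
  map_mul' s t := by
    apply Units.ext
    change reMat981 hR _ = reMat981 hR _ * reMat981 hR _
    rw [reMat_mul981]
    rfl

theorem reEmb_val981 (t : InfinitePlace K → GL (Fin 2) ℝ) :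
    ((reEmb981 hR t : G K) : Matrix (Fin 2) (Fin 2) (Adl K))
      = reMat981 hR (fun w => ((t w : GL (Fin 2) ℝ) : Matrix (Fin 2) (Fin 2) ℝ)) := rfl

theorem reGL_val981 (w : InfinitePlace K) (hw : w.IsReal) (g : G K) (i j : Fin 2) :
    ((reGL K w hw g : GL (Fin 2) ℝ) : Matrix (Fin 2) (Fin 2) ℝ) i j
      = InfinitePlace.Completion.extensionEmbeddingOfIsReal hw
          (((g : Matrix (Fin 2) (Fin 2) (Adl K)) i j).1 w) := rfl

theorem reGL_reEmb981 (t : InfinitePlace K → GL (Fin 2) ℝ) (w : InfinitePlace K) :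
    reGL K w (hR w) (reEmb981 hR t) = t w := by
  apply Units.ext
  ext i j
  rw [reGL_val981, reEmb_val981, reMat_inf981]
  exact ext_rInv981 w (hR w) _

theorem continuous_reMat981 :
    Continuous (fun t : InfinitePlace K → GL (Fin 2) ℝ =>
      reMat981 hR (fun w => ((t w : GL (Fin 2) ℝ) : Matrix (Fin 2) (Fin 2) ℝ))) := by
  refine continuous_matrix fun i j => ?_
  refine Continuous.prodMk (continuous_pi fun w => ?_) continuous_const
  refine (continuous_rInv981 w (hR w)).comp ?_
  exact (Units.continuous_val.comp (continuous_apply w)).matrix_elem i j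

theorem continuous_reEmb981 : Continuous (reEmb981 hR) := by
  rw [Units.continuous_iff]
  refine ⟨continuous_reMat981 hR, ?_⟩
  have h : Continuous (fun t : InfinitePlace K → GL (Fin 2) ℝ => t⁻¹) := continuous_inv
  exact (continuous_reMat981 hR).comp h

theorem trivAtFin_reEmb981 (t : InfinitePlace K → GL (Fin 2) ℝ)
    (v : HeightOneSpectrum (𝓞 K)) : TrivAtFin v (reEmb981 hR t) :=
  Matrix.ext fun i j => reMat_fin981 hR _ v i j

open Classical in
/-- The embedding of `GL₂(ℝ)` at the real place `w`. -/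
def reEmbAt981 (w : InfinitePlace K) : GL (Fin 2) ℝ →* G K :=
  (reEmb981 hR).comp (MonoidHom.mulSingle (fun _ : InfinitePlace K => GL (Fin 2) ℝ) w)

open Classical in
theorem reEmbAt_apply981 (w : InfinitePlace K) (s : GL (Fin 2) ℝ) :
    reEmbAt981 hR w s = reEmb981 hR (Pi.mulSingle w s) := rfl

theorem continuous_reEmbAt981 (w : InfinitePlace K) : Continuous (reEmbAt981 hR w) := by
  classical
  have h : Continuous (fun s : GL (Fin 2) ℝ =>
      (Pi.mulSingle w s : InfinitePlace K → GL (Fin 2) ℝ)) :=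
    continuous_mulSingle (A := fun _ : InfinitePlace K => GL (Fin 2) ℝ) w
  exact (continuous_reEmb981 hR).comp h

theorem reGL_reEmbAt981 (w : InfinitePlace K) (s : GL (Fin 2) ℝ) :
    reGL K w (hR w) (reEmbAt981 hR w s) = s := by
  classical
  rw [reEmbAt_apply981, reGL_reEmb981, Pi.mulSingle_eq_same]

theorem reGL_reEmbAt_ne981 (w : InfinitePlace K) (s : GL (Fin 2) ℝ) (w' : InfinitePlace K)
    (hw : w' ≠ w) : reGL K w' (hR w') (reEmbAt981 hR w s) = 1 := by
  classical
  rw [reEmbAt_apply981, reGL_reEmb981, Pi.mulSingle_eq_of_ne hw]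

theorem isLocalAtInf_reEmbAt981 (w : InfinitePlace K) (s : GL (Fin 2) ℝ) :
    IsLocalAtInf w (reEmbAt981 hR w s) := by
  classical
  refine ⟨fun w' hw i j => ?_, fun v => trivAtFin_reEmb981 hR _ v⟩
  rw [reEmbAt_apply981, reEmb_val981, reMat_inf981, Pi.mulSingle_eq_of_ne hw, Units.val_one,
    Matrix.one_apply, Matrix.one_apply]
  split_ifs
  · rw [map_one]
  · rw [map_zero]

/-- An element which is local at `w` is the image of its component at `w`. -/
theorem eq_reEmbAt_of_local981 (w : InfinitePlace K) (a : G K) (ha : IsLocalAtInf w a) :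
    a = reEmbAt981 hR w (reGL K w (hR w) a) := by
  classical
  apply Units.ext
  ext i j : 2
  refine adl_ext981 (fun w' => ?_) (fun v => ?_)
  · rw [reEmbAt_apply981, reEmb_val981, reMat_inf981]
    by_cases hw : w' = w
    · subst hw
      rw [Pi.mulSingle_eq_same, reGL_val981, rInv_ext981]
    · rw [Pi.mulSingle_eq_of_ne hw, Units.val_one, ha.1 w' hw i j, Matrix.one_apply,
        Matrix.one_apply]
      split_ifs
      · rw [map_one]
      · rw [map_zero]
  · have h1 : finComp v a i j = (1 : Matrix (Fin 2) (Fin 2) (v.adicCompletion K)) i j := by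
      rw [show finComp v a = 1 from ha.2 v]
    have h2 := congrFun (congrFun (trivAtFin_reEmb981 hR
      (Pi.mulSingle w (reGL K w (hR w) a)) v) i) j
    exact h1.trans h2.symm

/-- A section of `reGL` at `w` with local values is `reEmbAt981`. -/
theorem section_eq981 (w : InfinitePlace K) (Y : GL (Fin 2) ℝ → G K)
    (hY : ∀ y : GL (Fin 2) ℝ, IsLocalAtInf w (Y y) ∧ reGL K w (hR w) (Y y) = y) :
    Y = reEmbAt981 hR w := by
  funext y
  have := eq_reEmbAt_of_local981 hR w (Y y) (hY y).1
  rw [(hY y).2] at this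
  exact this

/-! ## 2. The component at `w` in `ℂ` -/

theorem infComp_reEmbAt981 (w : InfinitePlace K) (s : GL (Fin 2) ℝ) :
    infComp w (reEmbAt981 hR w s)
      = (s : Matrix (Fin 2) (Fin 2) ℝ).map (algebraMap ℝ ℂ) := by
  ext i j
  rw [infComp_eq_reGL K w (hR w), reGL_reEmbAt981]
  rfl

theorem holPart_one981 : T6.holPart (1 : GL (Fin 2) ℝ) = 1 := by
  unfold T6.holPart
  simp

theorem wtChar_one981 (n : ℤ) : T6.wtChar n (1 : GL (Fin 2) ℝ) = 1 := by
  unfold T6.wtChar
  rw [holPart_one981, one_zpow]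

theorem typeR_reEmbAt981 (n : InfinitePlace K → ℤ) (w : InfinitePlace K) (s : GL (Fin 2) ℝ) :
    typeR K hR n (reEmbAt981 hR w s) = T6.wtChar (n w) s := by
  unfold typeR
  rw [Finset.prod_eq_single w]
  · rw [reGL_reEmbAt981]
  · intro w' _ hw
    rw [reGL_reEmbAt_ne981 hR w s w' hw, wtChar_one981]
  · intro h
    exact absurd (Finset.mem_univ w) h

theorem isArchCompact_reEmbAt981 (w : InfinitePlace K) (k : GL (Fin 2) ℝ) (hk : T6.InSO2 k) :
    IsArchCompact w (reEmbAt981 hR w k) := by
  refine ⟨isLocalAtInf_reEmbAt981 hR w k, ?_, fun _ => ?_⟩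
  · rw [infComp_reEmbAt981]
    have h1 : ((k : Matrix (Fin 2) (Fin 2) ℝ).map (algebraMap ℝ ℂ)).conjTranspose
        = ((k : Matrix (Fin 2) (Fin 2) ℝ).transpose).map (algebraMap ℝ ℂ) := by
      ext i j
      simp [Matrix.conjTranspose_apply, Matrix.map_apply]
    rw [h1, ← Matrix.map_mul, hk.1, Matrix.map_one _ (map_zero _) (map_one _)]
  · rw [infComp_reEmbAt981]
    have h2 := (RingHom.map_det (algebraMap ℝ ℂ) (k : Matrix (Fin 2) (Fin 2) ℝ)).symm
    rw [RingHom.mapMatrix_apply] at h2
    rw [h2, hk.2, map_one]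

theorem isArchPosScalar_reEmbAt981 (w : InfinitePlace K) (z : GL (Fin 2) ℝ) (r : ℝ)
    (hr : 0 < r) (hz : (z : Matrix (Fin 2) (Fin 2) ℝ) = Matrix.diagonal (fun _ => r)) :
    IsArchPosScalar w (reEmbAt981 hR w z) := by
  refine ⟨isLocalAtInf_reEmbAt981 hR w z, r, hr, ?_⟩
  rw [infComp_reEmbAt981, hz]
  ext i j
  rw [Matrix.map_apply, Matrix.diagonal_apply, Matrix.diagonal_apply]
  split_ifs
  · rfl
  · exact map_zero _

/-! ## 3. The leaf -/

/-- **Leaf R.10 `LocOfMeanRC`**, VERBATIM, unconditional. -/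
theorem locOfMeanRC981 (K : Type) [Field K] [NumberField K] : R.LocOfMeanRC K := by
  intro hR 𝔫 n m φ hφ
  refine ⟨hφ.cont, hφ.level_inv, ?_⟩
  intro w Y hY g
  have hYe : Y = reEmbAt981 hR w := section_eq981 hR w Y hY
  subst hYe
  refine ⟨?_, ?_, ?_, ?_⟩
  · exact hφ.cont.comp (continuous_const.mul (continuous_reEmbAt981 hR w))
  · intro k y hk
    change φ (g * reEmbAt981 hR w (y * k)) = T6.wtChar (n w) k * φ (g * reEmbAt981 hR w y)
    rw [map_mul, ← mul_assoc, hφ.arch_compact w _ (isArchCompact_reEmbAt981 hR w k hk),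
      typeR_reEmbAt981]
  · intro z y r hr hz
    change φ (g * reEmbAt981 hR w (y * z)) = φ (g * reEmbAt981 hR w y)
    rw [map_mul, ← mul_assoc]
    exact hφ.arch_scalar w _ (isArchPosScalar_reEmbAt981 hR w z r hr hz) _
  · intro t ht Y' hY' x
    have h := hφ.mean w t ht (fun θ => reEmbAt981 hR w (Y' θ))
      (fun θ => ⟨isLocalAtInf_reEmbAt981 hR w _, by rw [reGL_reEmbAt981]; exact hY' θ⟩)
      (g * reEmbAt981 hR w x)
    simp only [map_mul, ← mul_assoc]
    exact h

example (K : Type) [Field K] [NumberField K] :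
    ∀ (hR : ∀ w : InfinitePlace K, w.IsReal) (𝔫 : Ideal (𝓞 K)) (n : InfinitePlace K → ℤ)
      (m : InfinitePlace K → ℝ → ℂ) (φ : G K → ℂ),
      IsMeanLevelR K hR 𝔫 n m φ →
        IsClassLevelR K hR 𝔫 (fun w => locClassR (n w) (m w)) φ :=
  locOfMeanRC981 K

end Fermat.Agent.LT.T3.R.H981

end
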